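/-
S58 / EC-Frob, block EC-U (helper8): abstract core.

* (U-lin) `trace_eq_two_of_fixed`: an endomorphism `f` of a free module of rank two over a
  commutative ring with `det f = 1` fixing a vector `P` with trivial annihilator has trace `2`;
  hence `charpoly f = (X - 1)^2`.
* `smul_eq_zero_imp_of_addOrderOf`: in a `ZMod n`-module an element of additive order `n` has
  trivial annihilator.
* `isAlgClosed_residueField`: the residue field of a valuation subring of an algebraically closed
  field is algebraically closed.
-/
import Mathlib

set_option autoImplicit false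

namespace Fermat.Agent.S58.EC.Unip.Core

open Polynomial

section Lin

variable {R : Type*} [CommRing R] {M : Type*} [AddCommGroup M] [Module R M]

/-- The characteristic polynomial of an endomorphism of a free module of rank two. -/
theorem charpoly_eq_of_basis_fin_two [Module.Free R M] [Module.Finite R M]
    (b : Module.Basis (Fin 2) R M) (f : M →ₗ[R] M) :
    f.charpoly = X ^ 2 - C (LinearMap.trace R M f) * X + C (LinearMap.det f) := by
  rcases subsingleton_or_nontrivial R with hR | hR
  · exact Subsingleton.elim _ _
  · rw [← LinearMap.charpoly_toMatrix f b, Matrix.charpoly_fin_two,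
      ← LinearMap.trace_eq_matrix_trace R b f, LinearMap.det_toMatrix b f]

/-- Cayley–Hamilton in rank two, applied to a vector. -/
theorem apply_apply_sub_trace_smul_add_det_smul (b : Module.Basis (Fin 2) R M) (f : M →ₗ[R] M)
    (x : M) : f (f x) - LinearMap.trace R M f • f x + LinearMap.det f • x = 0 := by
  have := Module.Free.of_basis b
  have := Module.Finite.of_basis b
  have h := LinearMap.aeval_self_charpoly f
  rw [charpoly_eq_of_basis_fin_two b f] at h
  have h2 := congrArg (fun g : Module.End R M => g x) h
  simpa [Module.End.mul_apply, pow_two, Algebra.algebraMap_eq_smul_one] using h2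

/-- **(U-lin), trace form.** -/
theorem trace_eq_two_of_fixed (b : Module.Basis (Fin 2) R M) (f : M →ₗ[R] M)
    (hdet : LinearMap.det f = 1) {P : M} (hfP : f P = P) (hP : ∀ c : R, c • P = 0 → c = 0) :
    LinearMap.trace R M f = 2 := by
  have h := apply_apply_sub_trace_smul_add_det_smul b f P
  rw [hfP, hfP, hdet, one_smul] at h
  have h2 : (2 - LinearMap.trace R M f) • P = 0 := by
    rw [sub_smul, two_smul]
    rw [← h]
    abel
  have := hP _ h2
  exact (sub_eq_zero.mp this).symm

/-- **(U-lin), characteristic polynomial form.** -/
theorem charpoly_eq_of_fixed [Module.Free R M] [Module.Finite R M]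
    (b : Module.Basis (Fin 2) R M) (f : M →ₗ[R] M)
    (hdet : LinearMap.det f = 1) {P : M} (hfP : f P = P) (hP : ∀ c : R, c • P = 0 → c = 0) :
    f.charpoly = (X - 1) ^ 2 := by
  rw [charpoly_eq_of_basis_fin_two b f, trace_eq_two_of_fixed b f hdet hfP hP, hdet]
  simp only [map_ofNat, map_one]
  ring

/-- The same for the characteristic polynomial of the matrix in the basis `b`. -/
theorem charpoly_toMatrix_eq_of_fixed (b : Module.Basis (Fin 2) R M) (f : M →ₗ[R] M)
    (hdet : LinearMap.det f = 1) {P : M} (hfP : f P = P) (hP : ∀ c : R, c • P = 0 → c = 0) :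
    (LinearMap.toMatrix b b f).charpoly = (X - 1) ^ 2 := by
  have := Module.Free.of_basis b
  have := Module.Finite.of_basis b
  rcases subsingleton_or_nontrivial R with hR | hR
  · exact Subsingleton.elim _ _
  · rw [LinearMap.charpoly_toMatrix f b]
    exact charpoly_eq_of_fixed b f hdet hfP hP

end Lin

section Order

/-- In a `ZMod n`-module an element of additive order `n` has trivial annihilator. -/
theorem smul_eq_zero_imp_of_addOrderOf {n : ℕ} [NeZero n] {M : Type*} [AddCommGroup M]
    [Module (ZMod n) M] {P : M} (hP : addOrderOf P = n) (c : ZMod n) (hc : c • P = 0) : c = 0 := by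
  have h1 : c.val • P = 0 := by
    rw [← Nat.cast_smul_eq_nsmul (ZMod n), ZMod.natCast_zmod_val]
    exact hc
  have h2 : n ∣ c.val := by
    have h3 : addOrderOf P ∣ c.val := addOrderOf_dvd_of_nsmul_eq_zero h1
    exact (congrArg (· ∣ c.val) hP).mp h3
  have h3 : c.val = 0 := Nat.eq_zero_of_dvd_of_lt h2 (ZMod.val_lt c)
  exact (ZMod.val_eq_zero c).mp h3

end Order

section Residue

variable {K : Type*} [Field K]

/-- The residue field of a valuation subring of an algebraically closed field is algebraically
closed. -/
theorem isAlgClosed_residueField [IsAlgClosed K] (A : ValuationSubring K) :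
    IsAlgClosed (IsLocalRing.ResidueField ↥A) := by
  refine IsAlgClosed.of_exists_root _ fun p hmonic _ => ?_
  -- lift `p` to a monic polynomial over `A`
  obtain ⟨P, hP, hPdeg, hPmonic⟩ :=
    Polynomial.lifts_and_degree_eq_and_monic
      (f := IsLocalRing.residue ↥A)
      (p := p) ((Polynomial.mem_lifts p).mpr
        (Polynomial.map_surjective _ IsLocalRing.residue_surjective p)) hmonic
  have hdeg : (P.map A.subtype).degree ≠ 0 := by
    rw [Polynomial.degree_map_eq_of_injective A.subtype_injective, hPdeg]
    intro h0
    have : p.natDegree = 0 := by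
      rw [Polynomial.natDegree_eq_zero_iff_degree_le_zero, h0]
    have hp1 : p = 1 := hmonic.natDegree_eq_zero.mp this
    rename_i hirr
    exact hirr.not_isUnit (hp1 ▸ isUnit_one)
  obtain ⟨x, hx⟩ := IsAlgClosed.exists_root _ hdeg
  have hint : IsIntegral ↥A x := ⟨P, hPmonic, by
    rw [Polynomial.eval₂_eq_eval_map]; exact hx⟩
  obtain ⟨a, rfl⟩ := IsIntegrallyClosed.isIntegral_iff.mp hint
  refine ⟨IsLocalRing.residue ↥A a, ?_⟩
  rw [← hP, Polynomial.eval_map, Polynomial.eval₂_hom]
  have h0 : P.eval a = 0 := by
    have h1 : (P.map A.subtype).eval (A.subtype a) = A.subtype (P.eval a) := by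
      rw [Polynomial.eval_map, Polynomial.eval₂_hom]
    have h2 : A.subtype (P.eval a) = 0 := by rw [← h1]; exact hx
    exact A.subtype_injective (by rw [h2, map_zero])
  rw [h0, map_zero]

end Residue

end Fermat.Agent.S58.EC.Unip.Core
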