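/-
S58 / EC-Frob, block EC-U (helper8): multiplicative reduction ⇒ a point of exact order `n`
fixed by inertia.

Generic setting: `K` algebraically closed, `A` a valuation subring, `r : ↥A →+* k` surjective
killing the maximal ideal, `k` algebraically closed, a curve `W'⁄K` reducing to a NODAL cubic `Wk`
(`Δ = 0`, `c₄ ≠ 0`), `n` invertible in `k`.  Then there is a point `P` of `W'⁄K` of exact order
`n` fixed by every automorphism `σ` of `K` inducing the identity on `k` (inertia).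

Route (row 46 (U1)–(U3)): a point `Q̃` of order `n` on the nonsingular locus of `Wk`
(`Nodal.exists_addOrderOf_eq`, helper14), lifted to `E0` (`Red/Lift`, helper21), corrected by an
element of the `n`-divisible kernel of reduction `E1` (`Red/Kernel`); `σ P - P ∈ E1` is killed by
`n`, hence `0` since `E1` has no `n`-torsion.
-/
import Mathlib
import Fermat.Agent.S58.EC.Red.Kernel
import Fermat.Agent.S58.EC.Red.Equivariant
import Fermat.Agent.S58.EC.Red.Lift
import Fermat.Agent.S58.EC.Nodal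

set_option autoImplicit false

namespace Fermat.Agent.S58.EC.Unip.Mult

open WeierstrassCurve WeierstrassCurve.Affine
open Fermat.Agent.S58.EC.Red.Basic Fermat.Agent.S58.EC.Red.Add Fermat.Agent.S58.EC.Red.Kernel
open Fermat.Agent.S58.EC.Red.Equivariant Fermat.Agent.S58.EC.Red.Lift
open Fermat.Agent.S05

section Generic

variable {K : Type*} [Field K] [DecidableEq K] [IsAlgClosed K] {A : ValuationSubring K}
  {k : Type*} [Field k] [DecidableEq k] [IsAlgClosed k] {r : ↥A →+* k}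
  {R S : Type*} [CommRing R] [CommRing S] [Algebra R S] [Algebra R K] [Algebra S K]
  [IsScalarTower R S K] {W' : Affine R} {Wk : Affine k}

/-- **(U1)–(U3).** A point of exact order `n` fixed by every automorphism inducing the identity on
the residue field. -/
theorem exists_fixed_point_of_order (hr : KillsMax r) (hsurj : Function.Surjective r)
    (hW : CurveRed A r (W'⁄K) Wk) (hΔ : (W'⁄K).Δ ≠ 0) (hΔk : Wk.Δ = 0) (hc₄ : Wk.c₄ ≠ 0)
    {n : ℕ} (hn : (n : k) ≠ 0) :
    ∃ P : (W'⁄K).Point, addOrderOf P = n ∧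
      ∀ σ : K ≃ₐ[S] K, Induces A r σ id → σ • P = P := by
  obtain ⟨Q, hQ⟩ := Nodal.exists_addOrderOf_eq Wk hΔk hc₄ n hn
  have hn0 : 0 < n := Nat.pos_of_ne_zero (by rintro rfl; exact hn Nat.cast_zero)
  have hu : IsUnit ((n : ℕ) : ↥A) := isUnit_natCast_of_ne_zero hr hn
  obtain ⟨P₁, hP₁, hred⟩ := exists_redFun_eq hsurj hW Q
  -- `n • P₁` lies in the kernel of reduction
  have h1 : InE0 A r (W'⁄K) Wk (n • P₁) := (E0 hr hW).nsmul_mem hP₁ n
  have h2 : redFun A r (W'⁄K) Wk (n • P₁) = 0 := by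
    rw [redFun_nsmul hr hW hP₁, hred, ← hQ, addOrderOf_nsmul_eq_zero]
  have h3 : Asm.InE1 A (n • P₁) := (redFun_eq_zero_iff h1).mp h2
  obtain ⟨T, hT, hnT⟩ := exists_inE1_nsmul_eq hW hΔ hn0 hu h3
  have hT0 : InE0 A r (W'⁄K) Wk T := inE0_of_inE1 hT
  have hP0 : InE0 A r (W'⁄K) Wk (P₁ - T) := (E0 hr hW).sub_mem hP₁ hT0
  have hPred : redFun A r (W'⁄K) Wk (P₁ - T) = Q := by
    rw [redFun_sub hr hW hP₁ hT0, hred, redFun_of_inE1 hT, sub_zero]
  have hnP : n • (P₁ - T) = 0 := by rw [smul_sub, hnT, sub_self]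
  refine ⟨P₁ - T, ?_, ?_⟩
  · apply Nat.dvd_antisymm (addOrderOf_dvd_of_nsmul_eq_zero hnP)
    have h4 : addOrderOf Q ∣ addOrderOf (P₁ - T) := by
      apply addOrderOf_dvd_of_nsmul_eq_zero
      rw [← hPred, ← redFun_nsmul hr hW hP0, addOrderOf_nsmul_eq_zero]
      rfl
    rwa [hQ] at h4
  · intro σ hσ
    have hσP0 : InE0 A r (W'⁄K) Wk (σ • (P₁ - T)) := (inE0_smul_iff_of_id σ hσ _).mpr hP0
    have hD0 : InE0 A r (W'⁄K) Wk (σ • (P₁ - T) - (P₁ - T)) := (E0 hr hW).sub_mem hσP0 hP0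
    have hDred : redFun A r (W'⁄K) Wk (σ • (P₁ - T) - (P₁ - T)) = 0 := by
      rw [redFun_sub hr hW hσP0 hP0, redFun_smul_of_id σ hσ, sub_self]
    have hD1 : Asm.InE1 A (σ • (P₁ - T) - (P₁ - T)) := (redFun_eq_zero_iff hD0).mp hDred
    have hcomm : σ • (n • (P₁ - T)) = n • (σ • (P₁ - T)) :=
      map_nsmul (DistribSMul.toAddMonoidHom (W'⁄K).Point σ) n (P₁ - T)
    have hnD : n • (σ • (P₁ - T) - (P₁ - T)) = 0 := by
      rw [smul_sub, ← hcomm, hnP, smul_zero, sub_zero]
    have := eq_zero_of_inE1_of_nsmul_eq_zero hW hu hD1 hnD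
    exact sub_eq_zero.mp this

end Generic

end Fermat.Agent.S58.EC.Unip.Mult
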