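/-
S58 / EC-Frob, block EC-U (helper8): **inertia at a multiplicative prime is unipotent on
`W(ℚ̄)[p^k]`**.

For `W : WeierstrassCurve ℤ` with `Δ ≠ 0`, a prime `q ∣ Δ`, `q ∤ c₄`, an odd prime `p ≠ q`, a
valuation subring `A` of `ℚ̄` over `q` and `τ` in its inertia group:

* `exists_fixed_point`: there is a point of exact order `n` (any `n` prime to `q`) of `W(ℚ̄)` fixed
  by the whole inertia group of `A`;
* `trace_eq_two`: `trace (τ | W[p^k]) = 2` as soon as `det (τ | W[p^k]) = 1`;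
* `trace_det_inertia`: the frozen consumer shape (I-U), with the determinant supplied by
  `DetCyclo` (helper28) from the determinants of the Frobenius elements at the good primes (EC-G).
-/
import Mathlib
import Fermat.Agent.S58.EC.Unip.Core
import Fermat.Agent.S58.EC.Unip.Mult
import Fermat.Agent.S58.EC.Red.IntModel
import Fermat.Agent.S58.EC.TorsionBasis
import Fermat.Agent.S58.EC.DetCyclo
import Fermat.Prelude.Def_EllipticCurve_FrobeniusTrace

set_option autoImplicit false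

namespace Fermat.Agent.S58.EC.Unip.Inertia

open WeierstrassCurve WeierstrassCurve.Affine WeierstrassCurve.Affine.Point
open Fermat.Agent.S58.EC.Red.Basic Fermat.Agent.S58.EC.Red.Equivariant
open Fermat.Agent.S58.EC.Red.IntModel

local notation "Qbar" => AlgebraicClosure ℚ
local notation "Γ" => (AlgebraicClosure ℚ ≃ₐ[ℚ] AlgebraicClosure ℚ)

/-! ### The residue field of a place over `q` -/

section Residue

variable {L : Type*} [Field L] {A : ValuationSubring L} {q : ℕ}

theorem natCast_residue_eq_zero (hA : A.LiesOverPrime q) :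
    ((q : ℕ) : IsLocalRing.ResidueField ↥A) = 0 := by
  have h1 : (((q : ℕ) : ↥A) : L) ∈ A.nonunits := by
    have : (((q : ℕ) : ↥A) : L) = (q : L) := by push_cast; rfl
    rw [this]; exact hA
  rw [ValuationSubring.coe_mem_nonunits_iff] at h1
  have h2 := (IsLocalRing.residue_eq_zero_iff _).mpr h1
  rwa [map_natCast] at h2

theorem intCast_residue_eq_zero (hA : A.LiesOverPrime q) {z : ℤ} (hz : (q : ℤ) ∣ z) :
    ((z : ℤ) : IsLocalRing.ResidueField ↥A) = 0 := by
  obtain ⟨c, rfl⟩ := hz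
  push_cast
  rw [natCast_residue_eq_zero hA, zero_mul]

theorem intCast_residue_ne_zero (hA : A.LiesOverPrime q) {z : ℤ} (hz : IsCoprime (q : ℤ) z) :
    ((z : ℤ) : IsLocalRing.ResidueField ↥A) ≠ 0 := by
  obtain ⟨u, v, huv⟩ := hz
  intro h0
  have h1 := congrArg (Int.cast : ℤ → IsLocalRing.ResidueField ↥A) huv
  push_cast at h1
  rw [natCast_residue_eq_zero hA, h0, mul_zero, mul_zero, add_zero] at h1
  exact zero_ne_one h1

theorem natCast_residue_ne_zero (hA : A.LiesOverPrime q) {n : ℕ} (hn : q.Coprime n) :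
    ((n : ℕ) : IsLocalRing.ResidueField ↥A) ≠ 0 := by
  have := intCast_residue_ne_zero hA (Nat.isCoprime_iff_coprime.mpr hn)
  rwa [Int.cast_natCast] at this

end Residue

variable (W : WeierstrassCurve ℤ)

/-! ### A point of exact order `n` fixed by inertia -/

/-- **(U1)–(U3) over `ℚ̄`.** If `q ∣ Δ`, `q ∤ c₄` and `n` is prime to `q`, there is a point of exact
order `n` of `W(ℚ̄)` fixed by the inertia group of every place `A` over `q`. -/
theorem exists_fixed_point (hΔ : W.Δ ≠ 0) {q : ℕ} (hq : q.Prime) (hqΔ : (q : ℤ) ∣ W.Δ)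
    (hc4 : ¬ (q : ℤ) ∣ W.c₄) {n : ℕ} (hn : q.Coprime n) {A : ValuationSubring Qbar}
    (hA : A.LiesOverPrime q) :
    ∃ P : ((W.map (Int.castRingHom ℚ))⁄Qbar).Point, addOrderOf P = n ∧
      ∀ τ ∈ A.inertiaSubgroupIn ℚ, τ • P = P := by
  classical
  have : IsAlgClosed (IsLocalRing.ResidueField ↥A) := Core.isAlgClosed_residueField A
  have hr : KillsMax (IsLocalRing.residue ↥A) := killsMax_residue
  have hW := curveRed_rat A (IsLocalRing.residue ↥A) W (K := Qbar)
  have hΔK := Δ_rat_baseChange_ne_zero (K := Qbar) W hΔ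
  have hΔk : (W.map (Int.castRingHom (IsLocalRing.ResidueField ↥A))).toAffine.Δ = 0 := by
    rw [Δ_map_intCast]
    exact intCast_residue_eq_zero hA hqΔ
  have hc₄k : (W.map (Int.castRingHom (IsLocalRing.ResidueField ↥A))).toAffine.c₄ ≠ 0 := by
    rw [c₄_map_intCast]
    exact intCast_residue_ne_zero hA
      (((Nat.prime_iff_prime_int.mp hq).irreducible).coprime_iff_not_dvd.mpr hc4)
  obtain ⟨P, hP, hfix⟩ := Mult.exists_fixed_point_of_order (S := ℚ) hr
    IsLocalRing.residue_surjective hW hΔK hΔk hc₄k (natCast_residue_ne_zero hA hn)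
  exact ⟨P, hP, fun τ hτ => hfix τ (induces_id_of_mem_inertia hr hτ)⟩

/-! ### Trace and determinant of inertia -/

/-- **Inertia at a multiplicative prime has trace `2` on `W[p^k]`**, given that its determinant
is `1`. -/
theorem trace_eq_two (hΔ : W.Δ ≠ 0) {q : ℕ} (hq : q.Prime) (hqΔ : (q : ℤ) ∣ W.Δ)
    (hc4 : ¬ (q : ℤ) ∣ W.c₄) {p : ℕ} (hp : p.Prime) (hp2 : p ≠ 2) (hpq : p ≠ q) (k : ℕ)
    {A : ValuationSubring Qbar} (hA : A.LiesOverPrime q) {τ : Γ}
    (hτ : τ ∈ A.inertiaSubgroupIn ℚ)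
    (hdet : LinearMap.det
      (galoisRepModuleEnd (K := Qbar) ℚ (W.map (Int.castRingHom ℚ)) (p ^ k) τ) = 1) :
    LinearMap.trace (ZMod (p ^ k)) _
      (galoisRepModuleEnd (K := Qbar) ℚ (W.map (Int.castRingHom ℚ)) (p ^ k) τ) = 2 := by
  have : NeZero (p ^ k) := ⟨pow_ne_zero _ hp.ne_zero⟩
  have hΔK := Δ_rat_baseChange_ne_zero (K := Qbar) W hΔ
  have hpK : ((p : ℕ) : Qbar) ≠ 0 := by exact_mod_cast hp.ne_zero
  obtain ⟨b⟩ := TorsionBasis.nonempty_basis (K := Qbar) (W.map (Int.castRingHom ℚ)).toAffine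
    hΔK hp hp2 hpK k
  have hcop : q.Coprime (p ^ k) :=
    Nat.Coprime.pow_right k ((Nat.coprime_primes hq hp).mpr (Ne.symm hpq))
  obtain ⟨P, hP, hfix⟩ := exists_fixed_point W hΔ hq hqΔ hc4 hcop hA
  have hmem : P ∈ Submodule.torsionBy ℤ ((W.map (Int.castRingHom ℚ))⁄Qbar).Point
      ((p ^ k : ℕ) : ℤ) := by
    rw [Submodule.mem_torsionBy_iff, natCast_zsmul, ← hP]
    exact addOrderOf_nsmul_eq_zero P
  set P' : Submodule.torsionBy ℤ ((W.map (Int.castRingHom ℚ))⁄Qbar).Point ((p ^ k : ℕ) : ℤ) :=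
    ⟨P, hmem⟩ with hP'
  have hord : addOrderOf P' = p ^ k :=
    ((addOrderOf_injective (Submodule.subtype _).toAddMonoidHom
      (Submodule.subtype_injective _) P').symm).trans hP
  refine Core.trace_eq_two_of_fixed b _ hdet (P := P') ?_
    (Core.smul_eq_zero_imp_of_addOrderOf hord)
  rw [galoisRepModuleEnd_apply]
  exact Subtype.ext (hfix τ hτ)

/-- **The frozen consumer shape (I-U)**: trace `2` and determinant `1` of inertia at a
multiplicative prime on `W[p^k]`; the determinants of the Frobenius elements at the good primes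
(output of EC-G) are the only input. -/
theorem trace_det_inertia (hΔ : W.Δ ≠ 0) {q : ℕ} (hq : q.Prime) (hqΔ : (q : ℤ) ∣ W.Δ)
    (hc4 : ¬ (q : ℤ) ∣ W.c₄) {p : ℕ} (hp : p.Prime) (hp2 : p ≠ 2) (hpq : p ≠ q) (k : ℕ)
    (hG : ∀ l : ℕ, l.Prime → l ≠ p → ¬ (l : ℤ) ∣ W.Δ →
      ∀ B : ValuationSubring Qbar, B.LiesOverPrime l → ∀ φ : Γ, B.IsFrobeniusAt φ l →
        LinearMap.det (galoisRepModuleEnd (K := Qbar) ℚ (W.map (Int.castRingHom ℚ)) (p ^ k) φ)
          = ((l : ℕ) : ZMod (p ^ k)))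
    {A : ValuationSubring Qbar} (hA : A.LiesOverPrime q) {τ : Γ}
    (hτ : τ ∈ A.inertiaSubgroupIn ℚ) :
    LinearMap.trace (ZMod (p ^ k)) _
        (galoisRepModuleEnd (K := Qbar) ℚ (W.map (Int.castRingHom ℚ)) (p ^ k) τ) = 2 ∧
      LinearMap.det
        (galoisRepModuleEnd (K := Qbar) ℚ (W.map (Int.castRingHom ℚ)) (p ^ k) τ) = 1 := by
  have : Fact p.Prime := ⟨hp⟩
  have hdet := DetCyclo.det_inertia_eq_one_of_model W p hΔ hp2 k hG hq (Ne.symm hpq) hA hτ
  exact ⟨trace_eq_two W hΔ hq hqΔ hc4 hp hp2 hpq k hA hτ hdet, hdet⟩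

end Fermat.Agent.S58.EC.Unip.Inertia
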