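/-
S58 / EC-Frob, block EC-U (helper8): the frozen consumer Prop `CompareHypOfEC.MultInertiaHyp W`
(helper26's provider of `LevelMatch.CompareHyp`) from `W.Δ ≠ 0` and the Frobenius half
`CompareHypOfEC.GoodFrobHyp W` of EC-G.
-/
import Fermat.Agent.S58.EC.Unip.Inertia
import Fermat.Agent.S58.Form.CompareHypOfEC

set_option autoImplicit false

namespace Fermat.Agent.S58.EC.Unip.Hyp

open Fermat.Agent.S58.Form.CompareHypOfEC

/-- **(I-U) from (I-G)(G2)**: inertia at the multiplicative primes is unipotent on `W[p^k]`. -/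
theorem multInertiaHyp (W : WeierstrassCurve ℤ) (hΔ : W.Δ ≠ 0) (hG : GoodFrobHyp W) :
    MultInertiaHyp W := by
  intro q hq hqΔ hc4 p hp hp2 hpq k A hA τ hτ
  refine Inertia.trace_det_inertia W hΔ hq hqΔ hc4 hp hp2 hpq k ?_ hA hτ
  intro l hl hlp hlΔ B hB φ hφ
  exact (hG l hl hlΔ B hB p hp hp2 (Ne.symm hlp) k φ hφ).2

end Fermat.Agent.S58.EC.Unip.Hyp
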